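import Fermat.Agent.S56.GW.Dual.Inv.Main
import Fermat.Agent.S56.GW.Dual.Local

/-!
# S56 / [GW-DUAL] D1: the seam `s56gd_LocInv_stmt` is PROVED (prefix `s56gdi_`)

`s56gdi_main : s56gd_LocInv_stmt`, with the explicit witness `s56gdi_locInv p q : s56gd_LocInv p q`
whose `inv` is `x ↦ s56gdi_inv p q x.1` (`s56gdi_locInv_inv_apply`).  The objects of
`GW/Dual/Local.lean` are definitionally those of `Inv/Quot.lean` (`s56gdi_QX_eq`,
`s56gdi_inflX_eq`, `s56gdi_Pq_eq`), so every lemma of `Inv/*` applies to them.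
-/

set_option autoImplicit false

open CategoryTheory groupCohomology ExtCitation

namespace Fermat.Agent.S56

open Fermat.Agent.S55

noncomputable section

variable (p : ℕ) [Fact p.Prime] (q : Nat.Primes) (a : s56gd_Fld)

theorem s56gdi_locq_eq : s56gd_locq q a = s56gdi_locq q a := rfl

theorem s56gdi_QX_eq : s56gd_QX q a = s56gdi_Q q a := rfl

theorem s56gdi_inflX_eq : s56gd_inflX q a = s56gdi_infl q a := rfl

theorem s56gdi_Pq_eq : s56gd_Pq q a p = ils_Pq p q a.L := rfl

/-- **The limit local invariant in the shape of the seam [D1].** -/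
def s56gdi_locInv : s56gd_LocInv p q where
  inv :=
    { toFun := fun x => s56gdi_inv p q x.1
      map_zero' := s56gdi_inv_zero p q
      map_add' := fun x y => s56gdi_inv_add p q x.1 y.1 x.2 y.2 }
  spec := fun a w hw _ => s56gdi_inv_infl p q a w hw

theorem s56gdi_locInv_inv_apply
    (x : ↥(fd_pPrimary p (lvH2 (tl_levelsLoc q) (tl_locUnits q)))) :
    (s56gdi_locInv p q).inv x = s56gdi_inv p q x.1 := rfl

/-- **SEAM [D1] IS PROVED.** -/
theorem s56gdi_main : s56gd_LocInv_stmt := fun p _ q => ⟨s56gdi_locInv p q⟩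

/-- The invariant of the seam is injective (for every witness of the seam which is additive and
satisfies `spec`, in particular for `s56gdi_locInv`). -/
theorem s56gdi_locInv_injective (I : s56gd_LocInv p q) : Function.Injective I.inv := by
  rw [injective_iff_map_eq_zero]
  rintro ⟨x, hx⟩ h
  obtain ⟨a, w, -, hw, rfl⟩ := s56gdi_exists_rep p q x hx s56gdi_bot
  have h1 : (ils_Pq p q a.L).invTop w = 0 := by
    rw [← s56gdi_Pq_eq, ← I.spec a w hw hx]
    exact h
  have h2 : s56gdi_inv p q (s56gdi_infl q a w) = 0 := by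
    rw [s56gdi_inv_infl p q a w hw, h1]
  exact Subtype.ext (s56gdi_inv_eq_zero p q _ hx h2)

/-- Any two witnesses of the seam [D1] have the same invariant map. -/
theorem s56gdi_locInv_unique (I I' : s56gd_LocInv p q) : I.inv = I'.inv := by
  ext ⟨x, hx⟩
  obtain ⟨a, w, -, hw, rfl⟩ := s56gdi_exists_rep p q x hx s56gdi_bot
  exact (I.spec a w hw hx).trans (I'.spec a w hw hx).symm

end

end Fermat.Agent.S56
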