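import Fermat.Agent.S56.GW.Dual.Inv.Trans
import Fermat.Agent.S55.Recip.ClassInv

/-!
# S56 / [GW-DUAL] D1: THE LIMIT LOCAL INVARIANT (prefix `s56gdi_`)

`s56gdi_inv p q : lvH2 (tl_levelsLoc q) (tl_locUnits q) → tt_QZ`, the invariant map of
`H²(G_q, (PadicAlgCl q)ˣ)` on `p`-primary classes (value `0` on the other classes), with

* `s56gdi_inv_infl`: `inv_q (infl_a w) = (ils_Pq p q a.L).invTop w` for every plain level `a` and
  every `p`-primary `w ∈ H²(D_q(a), (a.L·ℚ_q)ˣ)`;
* `s56gdi_inv_add`, `s56gdi_inv_zero`, `s56gdi_inv_neg`, `s56gdi_inv_nsmul`: additivity on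
  `p`-primary classes; `s56gdi_invHom p q : ↥(s56gdi_pPart p q) →+ tt_QZ` the bundled version;
* `s56gdi_inv_eq_zero`: `inv_q` is injective on `p`-primary classes;
* `s56gdi_exists_rep`: every `p`-primary class is the inflation of a `p`-primary class of a plain
  level above any given one.
-/

set_option autoImplicit false

open CategoryTheory groupCohomology ExtCitation

namespace Fermat.Agent.S56

open Fermat.Agent.S55

local notation "Qbar" => AlgebraicClosure ℚ
local notation "GQ" => (AlgebraicClosure ℚ ≃ₐ[ℚ] AlgebraicClosure ℚ)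

noncomputable section

variable (p : ℕ) (q : Nat.Primes)

/-- `p`-primarity descends along the (injective) inflation. -/
theorem s56gdi_isPPrimary_of_infl {a : s56gd_Fld} (w : groupCohomology (il_Xq q a.L) 2)
    (hw : tt_IsPPrimary p (s56gdi_infl q a w)) : tt_IsPPrimary p w := by
  obtain ⟨k, hk⟩ := hw
  refine ⟨k, s56gdi_infl_injective q a ?_⟩
  rw [map_nsmul, hk, map_zero]

theorem s56gdi_isPPrimary_infl {a : s56gd_Fld} (w : groupCohomology (il_Xq q a.L) 2)
    (hw : tt_IsPPrimary p w) : tt_IsPPrimary p (s56gdi_infl q a w) :=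
  tt_isPPrimary_map (s56gdi_infl q a) hw

variable [Fact p.Prime]

/-- **Independence of the level.** -/
theorem s56gdi_invTop_eq {a b : s56gd_Fld} (w : groupCohomology (il_Xq q a.L) 2)
    (w' : groupCohomology (il_Xq q b.L) 2) (hw : tt_IsPPrimary p w) (hw' : tt_IsPPrimary p w')
    (h : s56gdi_infl q a w = s56gdi_infl q b w') :
    (ils_Pq p q a.L).invTop w = (ils_Pq p q b.L).invTop w' := by
  have h1 := s56gdi_infl_trans q (s56gd_Fld.le_sup_left a b) w
  have h2 := s56gdi_infl_trans q (s56gd_Fld.le_sup_right a b) w'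
  have h3 : s56gdi_trans q (s56gd_Fld.le_sup_left a b) w =
      s56gdi_trans q (s56gd_Fld.le_sup_right a b) w' :=
    s56gdi_infl_injective q (a.sup b) (by rw [h1, h2, h])
  rw [← s56gdi_invTop_trans q (s56gd_Fld.le_sup_left a b) p w hw, h3,
    s56gdi_invTop_trans q (s56gd_Fld.le_sup_right a b) p w' hw']

/-- The smallest plain level. -/
def s56gdi_bot : s56gd_Fld := s56gdi_closure ⊥

omit [Fact p.Prime] in
/-- **Every `p`-primary class is the inflation of a `p`-primary class of a plain level**, which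
can be chosen above a given one. -/
theorem s56gdi_exists_rep (x : lvH2 (tl_levelsLoc q) (tl_locUnits q)) (hx : tt_IsPPrimary p x)
    (a₀ : s56gd_Fld) :
    ∃ (a : s56gd_Fld) (w : groupCohomology (il_Xq q a.L) 2),
      a₀ ≤ a ∧ tt_IsPPrimary p w ∧ s56gdi_infl q a w = x := by
  obtain ⟨a, ha, w, rfl⟩ := s56gdi_exists_level q x a₀
  exact ⟨a, w, ha, s56gdi_isPPrimary_of_infl p q w hx, rfl⟩

/-- The common value of the invariants of all the representatives of a `p`-primary class. -/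
theorem s56gdi_exists_val (x : lvH2 (tl_levelsLoc q) (tl_locUnits q)) (hx : tt_IsPPrimary p x) :
    ∃ v : tt_QZ, ∀ (a : s56gd_Fld) (w : groupCohomology (il_Xq q a.L) 2),
      tt_IsPPrimary p w → s56gdi_infl q a w = x → (ils_Pq p q a.L).invTop w = v := by
  obtain ⟨a₀, w₀, -, hw₀, h₀⟩ := s56gdi_exists_rep p q x hx s56gdi_bot
  exact ⟨(ils_Pq p q a₀.L).invTop w₀, fun a w hw h =>
    s56gdi_invTop_eq p q w w₀ hw hw₀ (h.trans h₀.symm)⟩

open Classical in
/-- **THE LIMIT LOCAL INVARIANT** `inv_q : H²(G_q, (PadicAlgCl q)ˣ) → ℚ/ℤ` on `p`-primary classes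
(`0` on the other classes). -/
def s56gdi_inv (x : lvH2 (tl_levelsLoc q) (tl_locUnits q)) : tt_QZ :=
  if hx : tt_IsPPrimary p x then (s56gdi_exists_val p q x hx).choose else 0

theorem s56gdi_inv_of_not (x : lvH2 (tl_levelsLoc q) (tl_locUnits q))
    (hx : ¬ tt_IsPPrimary p x) : s56gdi_inv p q x = 0 := by
  unfold s56gdi_inv
  rw [dif_neg hx]

/-- **The defining property of `inv_q`.** -/
theorem s56gdi_inv_infl (a : s56gd_Fld) (w : groupCohomology (il_Xq q a.L) 2)
    (hw : tt_IsPPrimary p w) :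
    s56gdi_inv p q (s56gdi_infl q a w) = (ils_Pq p q a.L).invTop w := by
  have hx := s56gdi_isPPrimary_infl p q w hw
  unfold s56gdi_inv
  rw [dif_pos hx]
  exact ((s56gdi_exists_val p q _ hx).choose_spec a w hw rfl).symm

theorem s56gdi_inv_zero : s56gdi_inv p q 0 = 0 := by
  have h := s56gdi_inv_infl p q s56gdi_bot 0 tt_isPPrimary_zero
  rw [map_zero, map_zero] at h
  exact h

/-- **Additivity on `p`-primary classes.** -/
theorem s56gdi_inv_add (x y : lvH2 (tl_levelsLoc q) (tl_locUnits q)) (hx : tt_IsPPrimary p x)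
    (hy : tt_IsPPrimary p y) :
    s56gdi_inv p q (x + y) = s56gdi_inv p q x + s56gdi_inv p q y := by
  obtain ⟨a, w, -, hw, rfl⟩ := s56gdi_exists_rep p q x hx s56gdi_bot
  obtain ⟨b, w', hab, hw', rfl⟩ := s56gdi_exists_rep p q y hy a
  rw [← s56gdi_infl_trans q hab w, ← map_add,
    s56gdi_inv_infl p q b _ (tt_isPPrimary_add (s56gdi_isPPrimary_trans q hab p w hw) hw'),
    s56gdi_inv_infl p q b _ (s56gdi_isPPrimary_trans q hab p w hw),
    s56gdi_inv_infl p q b _ hw', map_add]

/-- **`inv_q` is injective on `p`-primary classes.** -/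
theorem s56gdi_inv_eq_zero (x : lvH2 (tl_levelsLoc q) (tl_locUnits q)) (hx : tt_IsPPrimary p x)
    (h : s56gdi_inv p q x = 0) : x = 0 := by
  obtain ⟨a, w, -, hw, rfl⟩ := s56gdi_exists_rep p q x hx s56gdi_bot
  rw [s56gdi_inv_infl p q a w hw, PClassModule.invTop_apply] at h
  have h1 := (ils_Pq p q a.L).inv_inj ⊤ _
    (tt_isPPrimary_map (tt_resMap ⊤ (il_Xq q a.L) 2).hom.toAddMonoidHom hw) h
  have h2 : w = 0 := (rc_ci_resTop_bijective (il_Xq q a.L) 2).1 (h1.trans (map_zero _).symm)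
  rw [h2, map_zero]

/-- The `p`-primary part of `H²(G_q, (PadicAlgCl q)ˣ)`. -/
def s56gdi_pPart : AddSubgroup (lvH2 (tl_levelsLoc q) (tl_locUnits q)) where
  carrier := {x | tt_IsPPrimary p x}
  zero_mem' := tt_isPPrimary_zero
  add_mem' := fun hx hy => tt_isPPrimary_add hx hy
  neg_mem' := fun {x} hx => by
    obtain ⟨k, hk⟩ := hx
    exact ⟨k, by rw [neg_nsmul, hk, neg_zero]⟩

omit [Fact p.Prime] in
theorem s56gdi_mem_pPart (x : lvH2 (tl_levelsLoc q) (tl_locUnits q)) :
    x ∈ s56gdi_pPart p q ↔ tt_IsPPrimary p x := Iff.rfl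

/-- The limit local invariant as a homomorphism on the `p`-primary part. -/
def s56gdi_invHom : ↥(s56gdi_pPart p q) →+ tt_QZ where
  toFun x := s56gdi_inv p q x.1
  map_zero' := s56gdi_inv_zero p q
  map_add' x y := s56gdi_inv_add p q x.1 y.1 x.2 y.2

theorem s56gdi_invHom_apply (x : ↥(s56gdi_pPart p q)) :
    s56gdi_invHom p q x = s56gdi_inv p q x.1 := rfl

theorem s56gdi_inv_neg (x : lvH2 (tl_levelsLoc q) (tl_locUnits q)) (hx : tt_IsPPrimary p x) :
    s56gdi_inv p q (-x) = -s56gdi_inv p q x :=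
  map_neg (s56gdi_invHom p q) ⟨x, hx⟩

theorem s56gdi_inv_nsmul (n : ℕ) (x : lvH2 (tl_levelsLoc q) (tl_locUnits q))
    (hx : tt_IsPPrimary p x) : s56gdi_inv p q (n • x) = n • s56gdi_inv p q x :=
  map_nsmul (s56gdi_invHom p q) n ⟨x, hx⟩

theorem s56gdi_invHom_injective : Function.Injective (s56gdi_invHom p q) := by
  rw [injective_iff_map_eq_zero]
  intro x hx
  exact Subtype.ext (s56gdi_inv_eq_zero p q x.1 x.2 hx)

end

end Fermat.Agent.S56
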