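import Fermat.Agent.S56.GW.Dual.Base
import Fermat.Agent.S55.Idele.LocalSeamInfl
import Fermat.Agent.S55.Level.Bridge
import Fermat.Agent.S55.Level.InfRes
import Fermat.Agent.S55.Trans.LocH90
import Fermat.Agent.S55.Trans.LocUnits

/-!
# S56 / [GW-DUAL] D1: the finite quotients of the local Galois group (prefix `s56gdi_`)

For a prime `q` and a plain level `a : s56gd_Fld` (a finite Galois extension of `ℚ` in `ℚ̄`):

* `s56gdi_locq q a : G_q →* D_q(a)` the surjection onto the decomposition group `il_D q a.L`;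
* `s56gdi_Q q a : LvQuot (tl_levelsLoc q) (tl_locUnits q) D_q(a) (tl_Act (il_Xq q a.L))`:
  the units of `a.L·ℚ_q` are the invariants of `Fix(a.L) ∩ G_q` in `(PadicAlgCl q)ˣ`;
* `s56gdi_infl q a : H²(D_q(a), (a.L·ℚ_q)ˣ) →+ lvH2 (tl_levelsLoc q) (tl_locUnits q)`: inflation,
  **injective** (`s56gdi_infl_injective`, Hilbert 90);
* `s56gdi_exists_level`: every class of `lvH2 (tl_levelsLoc q) (tl_locUnits q)` is inflated from a
  plain level, which can be chosen above any given plain level.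
-/

set_option autoImplicit false

open CategoryTheory groupCohomology ExtCitation

namespace Fermat.Agent.S56

open Fermat.Agent.S55

local notation "Qbar" => AlgebraicClosure ℚ
local notation "GQ" => (AlgebraicClosure ℚ ≃ₐ[ℚ] AlgebraicClosure ℚ)

noncomputable section

/-- The kernel of `G_ℚ → Γ_a`. -/
theorem s56gdi_q_eq_one_iff (a : s56gd_Fld) (σ : GQ) : a.q σ = 1 ↔ σ ∈ a.L.fixingSubgroup := by
  rw [← tl_ker_restrictNormalHom a.L, MonoidHom.mem_ker]
  rfl

theorem s56gdi_q_surjective (a : s56gd_Fld) : Function.Surjective a.q :=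
  tl_restrictNormalHom_surjective a.L

theorem s56gdi_q_coe (a : s56gd_Fld) (σ : GQ) (x : a.L) : ((a.q σ x : a.L) : Qbar) = σ (x : Qbar) :=
  tl_coe_restrictNormalHom a.L σ x

variable (q : Nat.Primes) (a : s56gd_Fld)

/-- The decomposition group of the plain level `a` at `q`. -/
abbrev s56gdi_D : Subgroup a.Γ := il_D (q : ℕ) a.L

/-- The map from the local Galois group onto the decomposition group `D_q(a)`. -/
def s56gdi_locq : primeLocalGaloisGroup q →* ↥(s56gdi_D q a) :=
  MonoidHom.codRestrict (il_res (q : ℕ) a.L) (il_D (q : ℕ) a.L) (fun τ => ⟨τ, rfl⟩)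

theorem s56gdi_locq_coe (τ : primeLocalGaloisGroup q) :
    ((s56gdi_locq q a τ : ↥(s56gdi_D q a)) : a.Γ) = il_res (q : ℕ) a.L τ := rfl

theorem s56gdi_locq_coe' (τ : primeLocalGaloisGroup q) :
    ((s56gdi_locq q a τ : ↥(s56gdi_D q a)) : a.Γ) = a.q (primeLocalToGlobal q τ) := rfl

theorem s56gdi_locq_surjective : Function.Surjective (s56gdi_locq q a) := by
  rintro ⟨d, τ, rfl⟩
  exact ⟨τ, rfl⟩

theorem s56gdi_mem_ker_locq (τ : primeLocalGaloisGroup q) :
    τ ∈ (s56gdi_locq q a).ker ↔ primeLocalToGlobal q τ ∈ a.L.fixingSubgroup := by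
  rw [MonoidHom.mem_ker, Subtype.ext_iff, ← s56gdi_q_eq_one_iff]
  rfl

theorem s56gdi_ker_locq :
    (s56gdi_locq q a).ker = a.L.fixingSubgroup.comap (primeLocalToGlobal q) := by
  ext τ
  rw [s56gdi_mem_ker_locq]
  rfl

/-- **The finite quotient `D_q(a)` of the local Galois group for the module `(PadicAlgCl q)ˣ`.** -/
def s56gdi_Q :
    LvQuot (tl_levelsLoc q) (tl_locUnits q) ↥(s56gdi_D q a) (tl_Act (il_Xq q a.L)) where
  q := s56gdi_locq q a
  q_surj := s56gdi_locq_surjective q a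
  level := ⟨a.L.fixingSubgroup.comap (primeLocalToGlobal q),
    ⟨a.L.fixingSubgroup, ⟨a.L, inferInstance, rfl⟩, rfl⟩,
    fun τ hτ => (s56gdi_mem_ker_locq q a τ).2 hτ⟩
  φ := il_lam q a.L
  φ_inj := il_lam_injective q a.L
  equivariant := fun τ x => il_lam_equiv q a.L τ (s56gdi_locq q a τ) rfl x
  range_eq := fun u hu => il_lam_range q a.L u (fun τ hτ => hu τ (by
    rw [MonoidHom.mem_ker]
    exact Subtype.ext hτ))

@[simp] theorem s56gdi_Q_q : (s56gdi_Q q a).q = s56gdi_locq q a := rfl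

@[simp] theorem s56gdi_Q_φ (x : tl_Act (il_Xq q a.L)) : (s56gdi_Q q a).φ x = il_lam q a.L x := rfl

theorem s56gdi_Q_ker :
    (s56gdi_Q q a).q.ker = a.L.fixingSubgroup.comap (primeLocalToGlobal q) :=
  s56gdi_ker_locq q a

/-- The identity `tl_Act X_q ≃+ X_q`. -/
def s56gdi_e : tl_Act (il_Xq q a.L) ≃+ (il_Xq q a.L).V := AddEquiv.refl _

theorem s56gdi_he (d : ↥(s56gdi_D q a)) (x : tl_Act (il_Xq q a.L)) :
    s56gdi_e q a (d • x) = (il_Xq q a.L).ρ d (s56gdi_e q a x) := rfl

/-- Level cohomology of the finite group `D_q(a)` is Mathlib's group cohomology. -/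
def s56gdi_brd : lvH2 (LevelSys.trivial ↥(s56gdi_D q a)) (tl_Act (il_Xq q a.L)) ≃+
    groupCohomology (il_Xq q a.L) 2 :=
  lvH2Equiv (il_Xq q a.L) (s56gdi_e q a) (s56gdi_he q a)

/-- **Inflation** `H²(D_q(a), (a.L·ℚ_q)ˣ) → H²(G_q, (PadicAlgCl q)ˣ)` (level cohomology). -/
def s56gdi_infl :
    groupCohomology (il_Xq q a.L) 2 →+ lvH2 (tl_levelsLoc q) (tl_locUnits q) :=
  (s56gdi_Q q a).mor.H2.comp (s56gdi_brd q a).symm.toAddMonoidHom

theorem s56gdi_infl_apply (w : groupCohomology (il_Xq q a.L) 2) :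
    s56gdi_infl q a w = (s56gdi_Q q a).mor.H2 ((s56gdi_brd q a).symm w) := rfl

theorem s56gdi_infl_brd (y : lvH2 (LevelSys.trivial ↥(s56gdi_D q a)) (tl_Act (il_Xq q a.L))) :
    s56gdi_infl q a (s56gdi_brd q a y) = (s56gdi_Q q a).mor.H2 y := by
  rw [s56gdi_infl_apply, AddEquiv.symm_apply_apply]

/-- Inflation of the units is injective on `H²` (Hilbert 90). -/
theorem s56gdi_Q_H2_injective : Function.Injective (s56gdi_Q q a).mor.H2 :=
  (s56gdi_Q q a).H2_injective_of_ker
    (fun c₀ hc hlc => tl_locUnits_coboundary q (s56gdi_Q q a).q.ker c₀ hc hlc)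

/-- **Inflation is injective.** -/
theorem s56gdi_infl_injective : Function.Injective (s56gdi_infl q a) := by
  intro w w' h
  rw [s56gdi_infl_apply, s56gdi_infl_apply] at h
  exact (s56gdi_brd q a).symm.injective (s56gdi_Q_H2_injective q a h)

/-- A class is inflated from `a` as soon as the kernel of `G_q → D_q(a)` is small enough. -/
theorem s56gdi_mem_range_infl {x : lvH2 (tl_levelsLoc q) (tl_locUnits q)}
    (hx : x ∈ (s56gdi_Q q a).mor.H2.range) : ∃ w, s56gdi_infl q a w = x := by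
  obtain ⟨y, rfl⟩ := hx
  exact ⟨s56gdi_brd q a y, s56gdi_infl_brd q a y⟩

theorem s56gdi_normal_Qbar : Normal ℚ Qbar :=
  @IsAlgClosure.normal ℚ Qbar _ _ _ ⟨inferInstance, AlgebraicClosure.isAlgebraic ℚ⟩

/-- The normal closure of a finite extension as a plain level. -/
def s56gdi_closure (F : IntermediateField ℚ Qbar) [FiniteDimensional ℚ F] : s56gd_Fld where
  L := IntermediateField.normalClosure ℚ F Qbar
  fin := normalClosure.is_finiteDimensional ℚ F Qbar
  nor :=
    have := s56gdi_normal_Qbar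
    normalClosure.normal ℚ F Qbar

theorem s56gdi_le_closure (F : IntermediateField ℚ Qbar) [FiniteDimensional ℚ F] :
    F ≤ (s56gdi_closure F).L :=
  have := s56gdi_normal_Qbar
  IntermediateField.le_normalClosure F

/-- **Every class comes from a plain level**, which can be chosen above a given one. -/
theorem s56gdi_exists_level (x : lvH2 (tl_levelsLoc q) (tl_locUnits q)) (a₀ : s56gd_Fld) :
    ∃ a : s56gd_Fld, a₀ ≤ a ∧ ∃ w, s56gdi_infl q a w = x := by
  have hU₀ : a₀.L.fixingSubgroup.comap (primeLocalToGlobal q) ∈ (tl_levelsLoc q).levels :=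
    ⟨a₀.L.fixingSubgroup, ⟨a₀.L, inferInstance, rfl⟩, rfl⟩
  obtain ⟨W, ⟨_, ⟨F, hF, rfl⟩, rfl⟩, -, -, H⟩ :=
    lvH2_exists_level (tl_isSmooth_locUnits q) x hU₀
  have := hF
  let a : s56gd_Fld := (s56gdi_closure F).sup a₀
  refine ⟨a, s56gd_Fld.le_sup_right _ _, s56gdi_mem_range_infl q a (H (s56gdi_Q q a) ?_)⟩
  rw [s56gdi_Q_ker]
  apply Subgroup.comap_mono
  exact IntermediateField.fixingSubgroup_antitone
    ((s56gdi_le_closure F).trans (s56gd_Fld.le_sup_left _ _))

end

end Fermat.Agent.S56
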