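import Fermat.Agent.S56.GW.Dual.Inv.Quot

/-!
# S56 / [GW-DUAL] D1: transition between plain levels (prefix `s56gdi_`)

For plain levels `a ≤ b`:

* `s56gdi_resD q h : D_q(b) →* D_q(a)`, `s56gdi_incl q h : Rep.res (resD) X_q(a) ⟶ X_q(b)` the
  canonical restriction and inclusion of units (obtained from `LvQuot.trans`, characterised by
  `s56gdi_resD_locq`, `s56gdi_resD_spec`, `s56gdi_lam_incl`, `s56gdi_incl_coe`);
* `s56gdi_trans q h : H²(D_q(a), X_q(a)) →+ H²(D_q(b), X_q(b))` (Mathlib's `groupCohomology.map`);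
* `s56gdi_infl_trans`: inflation to `G_q` factors through `s56gdi_trans`;
* `s56gdi_invTop_trans`: the invariants of the local class modules `ils_Pq` are compatible with
  `s56gdi_trans` on `p`-primary classes.
-/

set_option autoImplicit false

open CategoryTheory groupCohomology ExtCitation

namespace Fermat.Agent.S56

open Fermat.Agent.S55

local notation "Qbar" => AlgebraicClosure ℚ
local notation "GQ" => (AlgebraicClosure ℚ ≃ₐ[ℚ] AlgebraicClosure ℚ)

noncomputable section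

variable (q : Nat.Primes) {a b : s56gd_Fld} (h : a ≤ b)

include h in
theorem s56gdi_ker_le : (s56gdi_Q q b).q.ker ≤ (s56gdi_Q q a).q.ker := by
  rw [s56gdi_Q_ker, s56gdi_Q_ker]
  exact Subgroup.comap_mono (IntermediateField.fixingSubgroup_antitone h)

/-- The canonical transition between the finite quotients of two plain levels. -/
def s56gdi_t : LvMor (LevelSys.trivial ↥(s56gdi_D q a)) (tl_Act (il_Xq q a.L))
    (LevelSys.trivial ↥(s56gdi_D q b)) (tl_Act (il_Xq q b.L)) :=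
  (s56gdi_Q q a).trans (s56gdi_Q q b) (s56gdi_ker_le q h)

/-- The restriction `D_q(b) → D_q(a)`. -/
def s56gdi_resD : ↥(s56gdi_D q b) →* ↥(s56gdi_D q a) := (s56gdi_t q h).f

theorem s56gdi_resD_locq (τ : primeLocalGaloisGroup q) :
    s56gdi_resD q h (s56gdi_locq q b τ) = s56gdi_locq q a τ :=
  (s56gdi_Q q a).trans_f_q (s56gdi_Q q b) (s56gdi_ker_le q h) τ

theorem s56gdi_resD_spec (d : ↥(s56gdi_D q b)) (x : a.L) :
    ((((s56gdi_resD q h d : ↥(s56gdi_D q a)) : a.L ≃ₐ[ℚ] a.L) x : a.L) : Qbar) =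
      ((((d : ↥(s56gdi_D q b)) : b.L ≃ₐ[ℚ] b.L) (IntermediateField.inclusion h x) : b.L) :
        Qbar) := by
  obtain ⟨τ, rfl⟩ := s56gdi_locq_surjective q b d
  rw [s56gdi_resD_locq, s56gdi_locq_coe', s56gdi_locq_coe', s56gdi_q_coe, s56gdi_q_coe]
  rfl

/-- The inclusion of units `(a.L·ℚ_q)ˣ → (b.L·ℚ_q)ˣ` as a morphism of `D_q(b)`-modules. -/
def s56gdi_incl : Rep.res (s56gdi_resD q h) (il_Xq q a.L) ⟶ il_Xq q b.L :=
  tt_homOfAdd (A := Rep.res (s56gdi_resD q h) (il_Xq q a.L)) (B := il_Xq q b.L)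
    (s56gdi_t q h).φ (fun d x => (s56gdi_t q h).equivariant d x)

theorem s56gdi_incl_apply (x : (il_Xq q a.L).V) :
    (s56gdi_incl q h).hom x = (s56gdi_t q h).φ x := rfl

theorem s56gdi_lam_incl (x : (il_Xq q a.L).V) :
    il_lam q b.L ((s56gdi_incl q h).hom x) = il_lam q a.L x :=
  (s56gdi_Q q a).φ_trans_φ (s56gdi_Q q b) (s56gdi_ker_le q h) x

theorem s56gdi_incl_coe (x : (il_Xq q a.L).V) :
    (((il_Xq.val q b.L ((s56gdi_incl q h).hom x) : (↥(il_Lq (q : ℕ) b.L))ˣ) :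
      ↥(il_Lq (q : ℕ) b.L)) : PadicAlgCl (q : ℕ)) =
    (((il_Xq.val q a.L x : (↥(il_Lq (q : ℕ) a.L))ˣ) : ↥(il_Lq (q : ℕ) a.L)) :
      PadicAlgCl (q : ℕ)) := by
  rw [← il_lam_coe, ← il_lam_coe, s56gdi_lam_incl]

/-- **The transition map** `H²(D_q(a), X_q(a)) → H²(D_q(b), X_q(b))`. -/
def s56gdi_trans : groupCohomology (il_Xq q a.L) 2 →+ groupCohomology (il_Xq q b.L) 2 :=
  (map (s56gdi_resD q h) (s56gdi_incl q h) 2).hom.toAddMonoidHom

theorem s56gdi_trans_apply (w : groupCohomology (il_Xq q a.L) 2) :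
    s56gdi_trans q h w = (map (s56gdi_resD q h) (s56gdi_incl q h) 2).hom w := rfl

theorem s56gdi_brd_t (y : lvH2 (LevelSys.trivial ↥(s56gdi_D q a)) (tl_Act (il_Xq q a.L))) :
    s56gdi_brd q b ((s56gdi_t q h).H2 y) = s56gdi_trans q h (s56gdi_brd q a y) :=
  lvH2Equiv_map (il_Xq q a.L) (il_Xq q b.L) (s56gdi_e q a) (s56gdi_he q a) (s56gdi_e q b)
    (s56gdi_he q b) (s56gdi_t q h) (s56gdi_incl q h) (fun _ => rfl) y

/-- **Inflation to `G_q` factors through the transition maps.** -/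
theorem s56gdi_infl_trans (w : groupCohomology (il_Xq q a.L) 2) :
    s56gdi_infl q b (s56gdi_trans q h w) = s56gdi_infl q a w := by
  obtain ⟨y, rfl⟩ := (s56gdi_brd q a).surjective w
  rw [← s56gdi_brd_t, s56gdi_infl_brd, s56gdi_infl_brd]
  exact LvQuot.H2_trans (s56gdi_Q q a) (s56gdi_Q q b) (s56gdi_t q h)
    ((s56gdi_Q q a).trans_f_q (s56gdi_Q q b) (s56gdi_ker_le q h))
    ((s56gdi_Q q a).φ_trans_φ (s56gdi_Q q b) (s56gdi_ker_le q h)) y

/-- **The invariants of the local class modules are compatible with the transition maps.** -/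
theorem s56gdi_invTop_trans (p : ℕ) [Fact p.Prime] (w : groupCohomology (il_Xq q a.L) 2)
    (hw : tt_IsPPrimary p w) :
    (ils_Pq p q b.L).invTop (s56gdi_trans q h w) = (ils_Pq p q a.L).invTop w :=
  ils_Pq_invTop_infl p h (s56gdi_resD q h) (s56gdi_resD_spec q h) (s56gdi_incl q h)
    (s56gdi_incl_coe q h) w hw

theorem s56gdi_isPPrimary_trans (p : ℕ) (w : groupCohomology (il_Xq q a.L) 2)
    (hw : tt_IsPPrimary p w) : tt_IsPPrimary p (s56gdi_trans q h w) :=
  tt_isPPrimary_map (s56gdi_trans q h) hw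

end

end Fermat.Agent.S56
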